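/-
P-S58 row 1097 (S58-FINLEVEL), helper50 (backup seat): the action of `G_ℚ` on `E[n]` factors
through a finite extension of `ℚ`, for every `n > 0`.

`E[n]` is finite (helper10 `ec_card_torsionBy`, on helper74's division-polynomial count), the
field generated by the coordinates of its points is finite over `ℚ`, and an automorphism fixing
the coordinates of a point fixes the point.
-/
import Fermat.Agent.H51.S58.Interfaces
import Fermat.Agent.H10.S58.ECard

set_option autoImplicit false

noncomputable section

namespace Fermat.Agent.H50.S58

open WeierstrassCurve WeierstrassCurve.Affine Fermat.Agent.H51.S58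

/-- The coordinates of a point. -/
def finLevelCoords {W : WeierstrassCurve ℤ} : EPt W → Set (AlgebraicClosure ℚ)
  | .zero => ∅
  | .some x y _ => {x, y}

theorem finLevelCoords_finite {W : WeierstrassCurve ℤ} (P : EPt W) :
    (finLevelCoords P).Finite := by
  cases P with
  | zero => exact Set.finite_empty
  | some x y h => exact (Set.finite_singleton y).insert x

/-- `E[n]` is a finite set. -/
theorem finLevel_torsion_finite (W : WeierstrassCurve ℤ) (hΔ : W.Δ ≠ 0) {n : ℕ} (hn : 0 < n) :
    {P : EPt W | n • P = 0}.Finite := by
  have hcard := Fermat.Agent.H10.S58.ec_card_torsionBy W hΔ (n := n) hn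
  have hfin : Finite (Submodule.torsionBy ℤ (EPt W) (n : ℤ)) :=
    Nat.finite_of_card_ne_zero (by rw [hcard]; positivity)
  have hset : {P : EPt W | n • P = 0} =
      ((Submodule.torsionBy ℤ (EPt W) (n : ℤ) : Submodule ℤ (EPt W)) : Set (EPt W)) := by
    ext P
    simp [Submodule.mem_torsionBy_iff]
  rw [hset]
  exact Set.toFinite _

/-- **FIN-LEVEL** (row 1097). -/
theorem torsionFiniteLevel : TorsionFiniteLevelStatement := by
  classical
  intro W hΔ n hn
  have hT := finLevel_torsion_finite W hΔ hn
  have hS : (⋃ P ∈ {P : EPt W | n • P = 0}, finLevelCoords P).Finite :=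
    hT.biUnion fun P _ => finLevelCoords_finite P
  have : Finite ↥(⋃ P ∈ {P : EPt W | n • P = 0}, finLevelCoords P) := hS.to_subtype
  refine ⟨IntermediateField.adjoin ℚ (⋃ P ∈ {P : EPt W | n • P = 0}, finLevelCoords P),
    IntermediateField.finiteDimensional_adjoin
      (fun x _ => (AlgebraicClosure.isAlgebraic ℚ).isIntegral.isIntegral x), ?_⟩
  intro σ hσ P hP
  cases P with
  | zero => rfl
  | some x y h =>
    have hmem : ∀ z ∈ finLevelCoords (Point.some x y h : EPt W), σ z = z := by
      intro z hz
      refine hσ z (IntermediateField.subset_adjoin ℚ _ ?_)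
      exact Set.mem_biUnion
        (show (Point.some x y h : EPt W) ∈ {P : EPt W | n • P = 0} from hP) hz
    have hx : σ x = x := hmem x (by simp [finLevelCoords])
    have hy : σ y = y := hmem y (by simp [finLevelCoords])
    show (Point.some (σ x) (σ y) _ : EPt W) = Point.some x y h
    simp only [Point.some.injEq]
    exact ⟨hx, hy⟩

end Fermat.Agent.H50.S58
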